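/-
KL-A, block GAUSS (helper113): the Gauss valuation ring of a subfield `L` of `K₀((q))` generated by
`A₀`-integral series, `A₀` a discrete valuation ring of `K₀` (in the form `IsUnif A₀ ϖ₀`).
-/
import Fermat.Agent.S18.ModDefs
import Fermat.Agent.S18.Chart.Unif
import Fermat.Agent.S18.Vert.IntSeries
import Fermat.Agent.S28.Export.Good

set_option autoImplicit false

noncomputable section

namespace Fermat.Agent.S18

open ModularCurve Fermat.Agent.S28.Export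

namespace Gauss

variable {K₀ : Type*} [Field K₀] {A₀ : ValuationSubring K₀} {ϖ₀ : K₀}

theorem isUnit_iff_inv_mem (a : A₀) : IsUnit a ↔ (a : K₀) ≠ 0 ∧ (a : K₀)⁻¹ ∈ A₀ := by
  constructor
  · intro hu
    have ha0 : (a : K₀) ≠ 0 := fun h => hu.ne_zero (Subtype.ext h)
    refine ⟨ha0, ?_⟩
    obtain ⟨b, hb⟩ := hu.exists_right_inv
    have h1 : (a : K₀) * b = 1 := congrArg Subtype.val hb
    have : (a : K₀)⁻¹ = b := (eq_inv_of_mul_eq_one_right h1).symm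
    rw [this]; exact b.2
  · rintro ⟨ha0, ha⟩
    exact IsUnit.of_mul_eq_one (⟨(a : K₀)⁻¹, ha⟩ : A₀) (Subtype.ext (mul_inv_cancel₀ ha0))

theorem residue_eq_zero_iff (h₀ : IsUnif A₀ ϖ₀) (a : A₀) :
    IsLocalRing.residue A₀ a = 0 ↔ (a : K₀) / ϖ₀ ∈ A₀ := by
  rw [IsLocalRing.residue_eq_zero_iff, IsLocalRing.mem_maximalIdeal, mem_nonunits_iff,
    isUnit_iff_inv_mem]
  constructor
  · intro hu
    by_cases ha0 : (a : K₀) = 0
    · rw [ha0, zero_div]; exact A₀.zero_mem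
    · exact h₀.div_mem a.2 fun ha => hu ⟨ha0, ha⟩
  · rintro hd ⟨ha0, ha⟩
    exact h₀.not_both ha0 hd ha

/-- the constant series -/
abbrev cst (c : K₀) : LaurentSeries K₀ := algebraMap K₀ (LaurentSeries K₀) c

theorem cst_ne_zero {c : K₀} (hc : c ≠ 0) : cst c ≠ 0 := by
  intro h
  exact hc ((map_eq_zero _).1 h)

theorem cst_mul (a b : K₀) : cst (a * b) = cst a * cst b := map_mul _ _ _

theorem cst_one : cst (1 : K₀) = 1 := map_one _

theorem cst_inv (a : K₀) : cst a⁻¹ = (cst a)⁻¹ := map_inv₀ _ _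

theorem iota_coeff (P : LaurentSeries A₀) (n : ℤ) : (iota A₀ P).coeff n = (P.coeff n : K₀) := rfl

theorem rho_coeff (P : LaurentSeries A₀) (n : ℤ) :
    (rho A₀ P).coeff n = IsLocalRing.residue A₀ (P.coeff n) := rfl

/-- a series with zero reduction is divisible by the uniformiser. -/
theorem exists_eq_cst_mul (h₀ : IsUnif A₀ ϖ₀) (P : LaurentSeries A₀) (hP : rho A₀ P = 0) :
    ∃ P' : LaurentSeries A₀, iota A₀ P = cst ϖ₀ * iota A₀ P' := by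
  have hmem : ∀ n, (cst ϖ₀⁻¹ * iota A₀ P).coeff n ∈ A₀ := by
    intro n
    rw [Vert.coeff_algebraMap_mul, iota_coeff, mul_comm, ← div_eq_mul_inv,
      ← residue_eq_zero_iff h₀, ← rho_coeff, hP, HahnSeries.coeff_zero]
  refine ⟨Vert.liftS A₀ _ hmem, ?_⟩
  have : iota A₀ (Vert.liftS A₀ _ hmem) = cst ϖ₀⁻¹ * iota A₀ P := Vert.inc_liftS A₀ _ hmem
  rw [this, ← mul_assoc, ← map_mul, mul_inv_cancel₀ h₀.ne_zero, map_one, one_mul]

/-- a nonzero integral series is a power of the uniformiser times a primitive series. -/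
theorem exists_pow_mul (h₀ : IsUnif A₀ ϖ₀) (P : LaurentSeries A₀) (hP : P ≠ 0) :
    ∃ (m : ℕ) (P' : LaurentSeries A₀), iota A₀ P = cst (ϖ₀ ^ m) * iota A₀ P' ∧ rho A₀ P' ≠ 0 := by
  obtain ⟨n, hn⟩ : ∃ n, P.coeff n ≠ 0 := by
    by_contra hcon
    simp only [not_exists, not_not] at hcon
    exact hP (HahnSeries.ext (funext hcon))
  have hn' : (P.coeff n : K₀) ≠ 0 := fun h => hn (Subtype.ext h)
  obtain ⟨m, hu, hu'⟩ := h₀.exists_unit_div_pow (P.coeff n).2 hn'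
  induction m generalizing P with
  | zero =>
    refine ⟨0, P, by simp, fun h0 => ?_⟩
    have h1 : IsLocalRing.residue A₀ (P.coeff n) = 0 := by
      rw [← rho_coeff, h0, HahnSeries.coeff_zero]
    rw [residue_eq_zero_iff h₀] at h1
    rw [pow_zero, div_one] at hu'
    exact h₀.not_both hn' h1 hu'
  | succ m ih =>
    by_cases h0 : rho A₀ P = 0
    · obtain ⟨P', hP'⟩ := exists_eq_cst_mul h₀ P h0
      have hc : (P.coeff n : K₀) = ϖ₀ * (P'.coeff n : K₀) := by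
        rw [← iota_coeff, hP', Vert.coeff_algebraMap_mul, iota_coeff]
      have hP'0 : P' ≠ 0 := by
        rintro rfl
        apply hn'
        rw [hc]; simp
      have hn1 : P'.coeff n ≠ 0 := by
        intro h
        apply hn'
        rw [hc, h]; simp
      have hn1' : (P'.coeff n : K₀) ≠ 0 := fun h => hn1 (Subtype.ext h)
      have e : (P.coeff n : K₀) / ϖ₀ ^ (m + 1) = (P'.coeff n : K₀) / ϖ₀ ^ m := by
        rw [hc, pow_succ]
        have := h₀.ne_zero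
        field_simp
      rw [e] at hu hu'
      obtain ⟨m', P'', h1, h2⟩ := ih P' hP'0 hn1 hn1' hu hu'
      refine ⟨m' + 1, P'', ?_, h2⟩
      rw [hP', h1, ← mul_assoc, ← map_mul, pow_succ, mul_comm ϖ₀]
    · exact ⟨0, P, by simp, h0⟩

variable (A₀ ϖ₀) in
/-- Normal form: `f = ϖ₀ ^ n * P / Q` with `P`, `Q` primitive integral series lying in `L`. -/
def Nf (L : IntermediateField K₀ (LaurentSeries K₀)) (f : LaurentSeries K₀) : Prop :=
  ∃ (n : ℤ) (P Q : LaurentSeries A₀), iota A₀ P ∈ L ∧ iota A₀ Q ∈ L ∧ rho A₀ P ≠ 0 ∧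
    rho A₀ Q ≠ 0 ∧ f * iota A₀ Q = cst (ϖ₀ ^ n) * iota A₀ P

variable {L : IntermediateField K₀ (LaurentSeries K₀)}

theorem iota_ne_zero {P : LaurentSeries A₀} (hP : rho A₀ P ≠ 0) : iota A₀ P ≠ 0 := by
  intro h
  have : P = 0 := iota_injective A₀ (by rw [h, map_zero])
  exact hP (by rw [this, map_zero])

theorem Nf.mul (h₀ : IsUnif A₀ ϖ₀) {f g : LaurentSeries K₀} (hf : Nf A₀ ϖ₀ L f)
    (hg : Nf A₀ ϖ₀ L g) : Nf A₀ ϖ₀ L (f * g) := by
  obtain ⟨n, P, Q, hP, hQ, hP0, hQ0, h⟩ := hf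
  obtain ⟨n', P', Q', hP', hQ', hP0', hQ0', h'⟩ := hg
  refine ⟨n + n', P * P', Q * Q', ?_, ?_, ?_, ?_, ?_⟩
  · rw [map_mul]; exact mul_mem hP hP'
  · rw [map_mul]; exact mul_mem hQ hQ'
  · rw [map_mul]; exact mul_ne_zero hP0 hP0'
  · rw [map_mul]; exact mul_ne_zero hQ0 hQ0'
  · rw [map_mul, map_mul, zpow_add₀ h₀.ne_zero, cst_mul]
    linear_combination (g * iota A₀ Q') * h + (cst (ϖ₀ ^ n) * iota A₀ P) * h'

theorem Nf.inv (h₀ : IsUnif A₀ ϖ₀) {f : LaurentSeries K₀} (hf : Nf A₀ ϖ₀ L f) :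
    Nf A₀ ϖ₀ L f⁻¹ := by
  obtain ⟨n, P, Q, hP, hQ, hP0, hQ0, h⟩ := hf
  refine ⟨-n, Q, P, hQ, hP, hQ0, hP0, ?_⟩
  have hc : cst (ϖ₀ ^ n) ≠ 0 := cst_ne_zero (zpow_ne_zero _ h₀.ne_zero)
  have hf0 : f ≠ 0 := by
    rintro rfl
    rw [zero_mul] at h
    exact mul_ne_zero hc (iota_ne_zero hP0) h.symm
  rw [zpow_neg, cst_inv]
  field_simp
  rw [h]; ring

theorem Nf.ne_zero (h₀ : IsUnif A₀ ϖ₀) {f : LaurentSeries K₀} (hf : Nf A₀ ϖ₀ L f) : f ≠ 0 := by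
  obtain ⟨n, P, Q, hP, hQ, hP0, hQ0, h⟩ := hf
  rintro rfl
  rw [zero_mul] at h
  exact mul_ne_zero (cst_ne_zero (zpow_ne_zero _ h₀.ne_zero)) (iota_ne_zero hP0) h.symm

theorem cst_mem (c : K₀) : cst c ∈ L := L.algebraMap_mem c

theorem nf_iota (h₀ : IsUnif A₀ ϖ₀) {P : LaurentSeries A₀} (hP : iota A₀ P ∈ L) (hP0 : P ≠ 0) :
    Nf A₀ ϖ₀ L (iota A₀ P) := by
  obtain ⟨m, P', h, h'⟩ := exists_pow_mul h₀ P hP0
  refine ⟨m, P', 1, ?_, by rw [map_one]; exact one_mem L, h', by rw [map_one]; exact one_ne_zero,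
    by rw [map_one, mul_one, zpow_natCast, h]⟩
  have hc : cst (ϖ₀ ^ m) ≠ 0 := cst_ne_zero (pow_ne_zero _ h₀.ne_zero)
  have : iota A₀ P' = (cst (ϖ₀ ^ m))⁻¹ * iota A₀ P := by
    rw [h, inv_mul_cancel_left₀ hc]
  rw [this]
  exact mul_mem (inv_mem (cst_mem _)) hP

theorem iota_C (a : A₀) : iota A₀ (HahnSeries.C a) = cst (a : K₀) := Vert.inc_C A₀ a

theorem nf_cst (h₀ : IsUnif A₀ ϖ₀) {c : K₀} (hc : c ≠ 0) : Nf A₀ ϖ₀ L (cst c) := by
  obtain ⟨n, hu, hu'⟩ := h₀.exists_zpow c hc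
  have hz : ϖ₀ ^ n ≠ 0 := zpow_ne_zero _ h₀.ne_zero
  refine ⟨n, HahnSeries.C ⟨_, hu⟩, 1, by rw [iota_C]; exact cst_mem _,
    by rw [map_one]; exact one_mem L, ?_, by rw [map_one]; exact one_ne_zero, ?_⟩
  · intro h
    have h1 : IsLocalRing.residue A₀ ⟨_, hu⟩ = 0 := by
      have := congrArg (fun x => HahnSeries.coeff x 0) h
      simpa [rho_coeff] using this
    rw [IsLocalRing.residue_eq_zero_iff, IsLocalRing.mem_maximalIdeal, mem_nonunits_iff,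
      isUnit_iff_inv_mem] at h1
    exact h1 ⟨div_ne_zero hc hz, hu'⟩
  · rw [map_one, mul_one, iota_C, ← map_mul, mul_div_cancel₀ _ hz]

theorem Nf.add (h₀ : IsUnif A₀ ϖ₀) {f g : LaurentSeries K₀} (hf : Nf A₀ ϖ₀ L f)
    (hg : Nf A₀ ϖ₀ L g) (hfg : f + g ≠ 0) : Nf A₀ ϖ₀ L (f + g) := by
  wlog hle : hf.choose ≤ hg.choose generalizing f g
  · rw [add_comm]
    exact this hg hf (by rwa [add_comm]) (le_of_not_ge hle)
  obtain ⟨P, Q, hP, hQ, hP0, hQ0, h⟩ := hf.choose_spec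
  obtain ⟨P', Q', hP', hQ', hP0', hQ0', h'⟩ := hg.choose_spec
  set n := hf.choose
  set n' := hg.choose
  have hϖ := h₀.ne_zero
  have hd : ϖ₀ ^ (n' - n) ∈ A₀ := h₀.zpow_mem (by omega)
  let H : LaurentSeries A₀ := P * Q' + HahnSeries.C ⟨_, hd⟩ * P' * Q
  have hH : iota A₀ H = iota A₀ P * iota A₀ Q' + cst (ϖ₀ ^ (n' - n)) * iota A₀ P' * iota A₀ Q := by
    simp only [H, map_add, map_mul, iota_C]
  have hQQ : iota A₀ Q * iota A₀ Q' ≠ 0 := mul_ne_zero (iota_ne_zero hQ0) (iota_ne_zero hQ0')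
  have key : (f + g) * (iota A₀ Q * iota A₀ Q') = cst (ϖ₀ ^ n) * iota A₀ H := by
    have e : cst (ϖ₀ ^ n') = cst (ϖ₀ ^ n) * cst (ϖ₀ ^ (n' - n)) := by
      rw [← map_mul, ← zpow_add₀ hϖ]; congr 2; ring
    rw [e] at h'
    rw [hH]
    linear_combination (iota A₀ Q') * h + (iota A₀ Q) * h'
  have hHL : iota A₀ H ∈ L := by
    rw [hH]
    exact add_mem (mul_mem hP hQ') (mul_mem (mul_mem (cst_mem _) hP') hQ)
  have hH0 : H ≠ 0 := by
    rintro h0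
    rw [h0, map_zero, mul_zero] at key
    exact mul_ne_zero hfg hQQ key
  have e : f + g = cst (ϖ₀ ^ n) * iota A₀ H * (iota A₀ (Q * Q'))⁻¹ := by
    rw [map_mul, ← key, mul_inv_cancel_right₀ hQQ]
  rw [e]
  refine ((nf_cst h₀ (zpow_ne_zero _ hϖ)).mul h₀ (nf_iota h₀ hHL hH0)).mul h₀ (Nf.inv h₀ ?_)
  refine nf_iota h₀ (by rw [map_mul]; exact mul_mem hQ hQ') ?_
  intro h0
  apply hQQ
  rw [← map_mul, h0, map_zero]

/-- Every nonzero element of a field generated by integral series has a normal form. -/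
theorem nf_adjoin (h₀ : IsUnif A₀ ϖ₀) (S : Set (LaurentSeries K₀))
    (hS : ∀ x ∈ S, ∃ P : LaurentSeries A₀, iota A₀ P = x) (f : LaurentSeries K₀)
    (hf : f ∈ IntermediateField.adjoin K₀ S) (hf0 : f ≠ 0) :
    Nf A₀ ϖ₀ (IntermediateField.adjoin K₀ S) f := by
  induction hf using IntermediateField.adjoin_induction with
  | mem x hx =>
    obtain ⟨P, rfl⟩ := hS x hx
    refine nf_iota h₀ (IntermediateField.subset_adjoin _ _ hx) ?_
    rintro rfl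
    exact hf0 (map_zero _)
  | algebraMap c =>
    exact nf_cst h₀ fun h => hf0 (by rw [h, map_zero])
  | add x y _ _ hx hy =>
    by_cases hx0 : x = 0
    · rw [hx0, zero_add] at hf0 ⊢; exact hy hf0
    by_cases hy0 : y = 0
    · rw [hy0, add_zero] at hf0 ⊢; exact hx hf0
    exact (hx hx0).add h₀ (hy hy0) hf0
  | inv x _ hx => exact (hx (fun h => hf0 (by rw [h, inv_zero]))).inv h₀
  | mul x y _ _ hx hy =>
    exact (hx (left_ne_zero_of_mul hf0)).mul h₀ (hy (right_ne_zero_of_mul hf0))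

/-- `L` has normal forms. -/
def HasNf (A₀ : ValuationSubring K₀) (ϖ₀ : K₀) (L : IntermediateField K₀ (LaurentSeries K₀)) :
    Prop := ∀ f ∈ L, f ≠ 0 → Nf A₀ ϖ₀ L f

theorem smul_eq_cst_mul (c : K₀) (f : LaurentSeries K₀) : c • f = cst c * f := by
  rw [smul_eq_C_mul]
  congr 1
  exact (algebraMap_laurentSeries_eq_single K₀ c).symm

theorem Nf.red (h₀ : IsUnif A₀ ϖ₀) {f : LaurentSeries K₀} (hf : Nf A₀ ϖ₀ L f) :
    ∃ c : K₀, c ≠ 0 ∧ ∃ g, g ≠ 0 ∧ Red A₀ (c • f) g := by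
  obtain ⟨n, P, Q, hP, hQ, hP0, hQ0, h⟩ := hf
  have hz : ϖ₀ ^ n ≠ 0 := zpow_ne_zero _ h₀.ne_zero
  refine ⟨(ϖ₀ ^ n)⁻¹, inv_ne_zero hz, rho A₀ P / rho A₀ Q, div_ne_zero hP0 hQ0, ?_⟩
  have e : (ϖ₀ ^ n)⁻¹ • f = iota A₀ P / iota A₀ Q := by
    rw [smul_eq_cst_mul, eq_div_iff (iota_ne_zero hQ0), mul_assoc, h, ← mul_assoc, ← cst_mul,
      inv_mul_cancel₀ hz, cst_one, one_mul]
  rw [e]
  exact (red_iota P).div (red_iota Q) hQ0

theorem HasNf.isGood (h₀ : IsUnif A₀ ϖ₀) (hL : HasNf A₀ ϖ₀ L) : IsGood A₀ L :=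
  fun f hf hf0 => (hL f hf hf0).red h₀

/-- The Gauss ring of a good field is a Gauss valuation ring in the sense of `IsGauss`. -/
theorem isGauss_gaussRing (h₀ : IsUnif A₀ ϖ₀) (hL : IsGood A₀ L) :
    IsGauss A₀ ϖ₀ L (gaussRing A₀ L hL) where
  unif :=
    { mem := (algebraMap_mem_gaussRing_iff hL ϖ₀).2 h₀.mem
      inv_notMem := by
        rw [← map_inv₀, algebraMap_mem_gaussRing_iff hL]
        exact h₀.inv_notMem
      exists_zpow := by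
        intro y hy
        obtain ⟨c, hc, v, hv⟩ := exists_smul_isUnit hL y hy
        obtain ⟨n, hu, hu'⟩ := h₀.exists_zpow c hc
        have hz : algebraMap K₀ L ϖ₀ ^ n ≠ 0 :=
          zpow_ne_zero _ (fun h => h₀.ne_zero ((map_eq_zero _).1 h))
        have e : y / algebraMap K₀ L ϖ₀ ^ n =
            algebraMap K₀ L (c / ϖ₀ ^ n) * ((v : gaussRing A₀ L hL) : L) := by
          rw [hv, map_div₀, map_zpow₀]
          field_simp
        refine ⟨n, ?_, ?_⟩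
        · rw [e]
          exact mul_mem ((algebraMap_mem_gaussRing_iff hL _).2 hu) (Subtype.mem _)
        · rw [e, mul_inv, ← map_inv₀]
          refine mul_mem ((algebraMap_mem_gaussRing_iff hL _).2 hu') ?_
          have : (((v : gaussRing A₀ L hL) : L))⁻¹ =
              (((v⁻¹ : (gaussRing A₀ L hL)ˣ) : gaussRing A₀ L hL) : L) := by
            apply inv_eq_of_mul_eq_one_right
            exact congrArg Subtype.val (Units.mul_inv v)
          rw [this]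
          exact Subtype.mem _ }
  mem P hP := ⟨rho A₀ P, red_iota P⟩
  inv_mem P hP hne := ⟨(rho A₀ P)⁻¹, (red_iota P).inv hne⟩

end Gauss

open Gauss

section GAUSS

variable {K₀ : Type*} [Field K₀] {A₀ : ValuationSubring K₀} {ϖ₀ : K₀}

theorem IsGauss.const_mem {L : IntermediateField K₀ (LaurentSeries K₀)} {Ow : ValuationSubring L}
    (hG : IsGauss A₀ ϖ₀ L Ow) : ∀ a ∈ A₀, algebraMap K₀ L a ∈ Ow := by
  intro a ha
  have h1 : coeffMap A₀.subtype (HahnSeries.C (⟨a, ha⟩ : A₀)) = cst a := iota_C _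
  have h2 : coeffMap A₀.subtype (HahnSeries.C (⟨a, ha⟩ : A₀)) ∈ L := by
    rw [h1]; exact cst_mem a
  have h3 := hG.mem _ h2
  have h4 : (⟨_, h2⟩ : L) = algebraMap K₀ L a := Subtype.ext h1
  rwa [h4] at h3

/-- `P ≡ Q ≢ 0` implies `w (P / Q - 1) > 0`. -/
theorem IsGauss.sub_one_div_mem {L : IntermediateField K₀ (LaurentSeries K₀)}
    {Ow : ValuationSubring L} (h₀ : IsUnif A₀ ϖ₀) (hG : IsGauss A₀ ϖ₀ L Ow)
    (P Q : LaurentSeries A₀) (hP : coeffMap A₀.subtype P ∈ L) (hQ : coeffMap A₀.subtype Q ∈ L)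
    (hred : coeffMap (IsLocalRing.residue A₀) P = coeffMap (IsLocalRing.residue A₀) Q)
    (hne : coeffMap (IsLocalRing.residue A₀) Q ≠ 0) :
    ((⟨_, hP⟩ : L) / ⟨_, hQ⟩ - 1) / algebraMap K₀ L ϖ₀ ∈ Ow := by
  have h0 : rho A₀ (P - Q) = 0 := by rw [map_sub, sub_eq_zero]; exact hred
  obtain ⟨R, hR⟩ := exists_eq_cst_mul h₀ (P - Q) h0
  have hc : cst ϖ₀ ≠ 0 := cst_ne_zero h₀.ne_zero
  have hRL : coeffMap A₀.subtype R ∈ L := by
    have : iota A₀ R = (cst ϖ₀)⁻¹ * iota A₀ (P - Q) := by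
      rw [hR, inv_mul_cancel_left₀ hc]
    change iota A₀ R ∈ L
    rw [this, map_sub]
    exact mul_mem (L.inv_mem (cst_mem _)) (sub_mem hP hQ)
  have hQ0 : (⟨_, hQ⟩ : L) ≠ 0 := fun h => iota_ne_zero hne (congrArg Subtype.val h)
  have hc' : algebraMap K₀ L ϖ₀ ≠ 0 := fun h => h₀.ne_zero ((map_eq_zero _).1 h)
  have e : ((⟨_, hP⟩ : L) / ⟨_, hQ⟩ - 1) / algebraMap K₀ L ϖ₀ = (⟨_, hRL⟩ : L) * (⟨_, hQ⟩ : L)⁻¹ := by
    have h1 : (⟨_, hP⟩ : L) - ⟨_, hQ⟩ = algebraMap K₀ L ϖ₀ * ⟨_, hRL⟩ := by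
      apply Subtype.ext
      rw [map_sub] at hR
      exact hR
    have h2 : (⟨_, hP⟩ : L) = ⟨_, hQ⟩ + algebraMap K₀ L ϖ₀ * ⟨_, hRL⟩ := by
      rw [← h1]; ring
    rw [h2]
    field_simp
    ring
  rw [e]
  exact mul_mem (hG.mem R hRL) (hG.inv_mem Q hQ hne)

/-- Two Gauss valuation rings of a field with normal forms agree. -/
theorem IsGauss.le_of_hasNf {L : IntermediateField K₀ (LaurentSeries K₀)}
    {Ow Ow' : ValuationSubring L} (hL : HasNf A₀ ϖ₀ L)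
    (hG : IsGauss A₀ ϖ₀ L Ow) (hG' : IsGauss A₀ ϖ₀ L Ow') : Ow ≤ Ow' := by
  intro f hf
  by_cases hf0 : f = 0
  · rw [hf0]; exact Ow'.zero_mem
  obtain ⟨n, P, Q, hP, hQ, hP0, hQ0, h⟩ := hL f f.2 (fun h => hf0 (Subtype.ext h))
  have hP' : (⟨_, hP⟩ : L) ≠ 0 := fun h => iota_ne_zero hP0 (congrArg Subtype.val h)
  have hQ' : (⟨_, hQ⟩ : L) ≠ 0 := fun h => iota_ne_zero hQ0 (congrArg Subtype.val h)
  have h1 : f * ⟨_, hQ⟩ = algebraMap K₀ L ϖ₀ ^ n * ⟨_, hP⟩ := by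
    apply Subtype.ext
    rw [← map_zpow₀]
    exact h
  have h2 : algebraMap K₀ L ϖ₀ ^ n = f * ⟨_, hQ⟩ * (⟨_, hP⟩ : L)⁻¹ := by
    rw [h1, mul_inv_cancel_right₀ hP']
  have h3 : algebraMap K₀ L ϖ₀ ^ n ∈ Ow := by
    rw [h2]
    exact mul_mem (mul_mem hf (hG.mem Q hQ)) (hG.inv_mem P hP hP0)
  have hn : 0 ≤ n := by
    by_contra hlt
    apply hG.unif.inv_notMem
    have : (algebraMap K₀ L ϖ₀)⁻¹ = algebraMap K₀ L ϖ₀ ^ n * algebraMap K₀ L ϖ₀ ^ (-n - 1) := by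
      rw [← zpow_add₀ hG.unif.ne_zero, ← zpow_neg_one]
      congr 1; ring
    rw [this]
    exact mul_mem h3 (hG.unif.zpow_mem (by omega))
  have h4 : f = algebraMap K₀ L ϖ₀ ^ n * ⟨_, hP⟩ * (⟨_, hQ⟩ : L)⁻¹ := by
    rw [← h1, mul_inv_cancel_right₀ hQ']
  rw [h4]
  exact mul_mem (mul_mem (hG'.unif.zpow_mem hn) (hG'.mem P hP)) (hG'.inv_mem Q hQ hQ0)

theorem IsGauss.eq_of_hasNf {L : IntermediateField K₀ (LaurentSeries K₀)}
    {Ow Ow' : ValuationSubring L} (hL : HasNf A₀ ϖ₀ L)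
    (hG : IsGauss A₀ ϖ₀ L Ow) (hG' : IsGauss A₀ ϖ₀ L Ow') : Ow = Ow' :=
  le_antisymm (hG.le_of_hasNf hL hG') (hG'.le_of_hasNf hL hG)

end GAUSS

end Fermat.Agent.S18
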