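/-
KL-A, block GAUSS (helper113): existence of the Gauss valuation ring of `FK K₀ M`.
-/
import Fermat.Agent.S18.Gauss.Basic
import Fermat.Agent.S28.Export.DescentQ

set_option autoImplicit false

noncomputable section

namespace Fermat.Agent.S18

open ModularCurve Fermat.Agent.S28.Export Gauss

namespace Gauss

theorem adjoin_image_full (K : Type*) [Field K] [CharZero K] (M : ℕ) :
    IntermediateField.adjoin K
      (coeffMap (algebraMap ℚ K) '' (modularFunctionFieldFull M : Set (LaurentSeries ℚ))) =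
      modularFunctionFieldFullC K M := by
  have himg : modularFunctionFieldFullC K M =
      IntermediateField.adjoin K (coeffMap (algebraMap ℚ K) '' (divisorExpansionsC ℚ M)) := by
    rw [image_divisorExpansions]; rfl
  apply le_antisymm
  · rw [IntermediateField.adjoin_le_iff]
    rintro y ⟨x, hx, rfl⟩
    rw [SetLike.mem_coe, himg]
    exact coeffMap_mem_adjoin _ _ hx
  · rw [himg]
    apply IntermediateField.adjoin.mono
    apply Set.image_mono
    exact IntermediateField.subset_adjoin ℚ _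

/-- `FK K M` is generated over `K` by the `j(q^d)`, `d ∣ M`. -/
theorem FK_eq_full (K : Type*) [Field K] [Algebra ℚ K] (M : ℕ) :
    FK K M = modularFunctionFieldFullC K M := by
  have : CharZero K := algebraRat.charZero K
  rw [← adjoin_image_full, FK, laurentBaseChange]
  have : coeffEmb K = coeffMap (@algebraMap ℚ K _ _ DivisionRing.toRatAlgebra) :=
    congrArg coeffMap (Subsingleton.elim _ _)
  rw [this]

variable {K₀ : Type*} [Field K₀] {A₀ : ValuationSubring K₀} {ϖ₀ : K₀}

theorem hasNf_full (h₀ : IsUnif A₀ ϖ₀) (M : ℕ) : HasNf A₀ ϖ₀ (modularFunctionFieldFullC K₀ M) := by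
  intro f hf hf0
  refine nf_adjoin h₀ _ ?_ f hf hf0
  rintro x ⟨d, hd, -, rfl⟩
  refine ⟨qExpand A₀ d (jqModC A₀), ?_⟩
  rw [coeffMap_qExpand, coeffMap_jqModC]

theorem hasNf_FK [Algebra ℚ K₀] (h₀ : IsUnif A₀ ϖ₀) (M : ℕ) : HasNf A₀ ϖ₀ (FK K₀ M) := by
  rw [FK_eq_full]; exact hasNf_full h₀ M

end Gauss

section GAUSS

variable {K₀ : Type*} [Field K₀] [Algebra ℚ K₀] {A₀ : ValuationSubring K₀} {ϖ₀ : K₀}

theorem exists_isGauss (h₀ : IsUnif A₀ ϖ₀) (M : ℕ) :
    ∃ Ow : ValuationSubring (FK K₀ M), IsGauss A₀ ϖ₀ (FK K₀ M) Ow :=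
  ⟨_, isGauss_gaussRing h₀ ((hasNf_FK h₀ M).isGood h₀)⟩

end GAUSS

end Fermat.Agent.S18
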