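/-
KL-A, block VERT-j (helper113), abstract part: `IsVert` for a simple extension `F = E(u)` such that
the minimal polynomial `p` of `u` has integral coefficients, `p'(u)` is a unit and `Ow` is spanned
by the powers of `u` over `Ow ∩ E`.  Mathlib + `S18/Defs.lean` only.
-/
import Mathlib
import Fermat.Agent.S18.Defs

set_option autoImplicit false

noncomputable section

namespace Fermat.Agent.S18

open Polynomial IntermediateField

namespace Gauss

/-- Euler: `Tr (x ^ (n - 1) / f'(x)) = 1`. -/
theorem trace_pow_div_derivative {K L : Type*} [Field K] [Field L] [Algebra K L]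
    [FiniteDimensional K L] [Algebra.IsSeparable K L] {x : L} (hx : Algebra.adjoin K {x} = ⊤) :
    Algebra.trace K L (x ^ ((minpoly K x).natDegree - 1) / aeval x (derivative (minpoly K x))) =
      1 := by
  classical
  apply (algebraMap K (AlgebraicClosure K)).injective
  have hint : IsIntegral K x := Algebra.IsIntegral.isIntegral x
  have hfr : Module.finrank K L = (minpoly K x).natDegree :=
    (PowerBasis.ofAdjoinEqTop hint hx).finrank
  have hpos : 0 < (minpoly K x).natDegree := minpoly.natDegree_pos hint
  have := congr_arg (coeff · ((minpoly K x).natDegree - 1))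
    (sum_smul_minpolyDiv_eq_X_pow (AlgebraicClosure K) hx
      (r := (minpoly K x).natDegree - 1) (by omega))
  have hc : (minpolyDiv K x).coeff ((minpoly K x).natDegree - 1) = 1 := by
    rw [← natDegree_minpolyDiv]; exact minpolyDiv_monic hint
  simp only [Polynomial.map_smul, finsetSum_coeff, coeff_smul, coeff_map, hc, map_one,
    smul_eq_mul, mul_one, coeff_X_pow, if_true] at this
  rw [trace_eq_sum_embeddings (E := AlgebraicClosure K), map_one, ← this]
  rfl

variable {K₀ F : Type*} [Field K₀] [Field F] [Algebra K₀ F] [CharZero K₀]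

theorem isVert_of_simple {A₀ : ValuationSubring K₀} {ϖ₀ : K₀} {Ow : ValuationSubring F}
    {E : IntermediateField K₀ F} (h₀ : IsUnif A₀ ϖ₀) (hw : IsUnif Ow (algebraMap K₀ F ϖ₀))
    (hc : ∀ a ∈ A₀, algebraMap K₀ F a ∈ Ow)
    (u : F) (p : E[X]) (hp : p.Monic) (hpO : ∀ i, (p.coeff i : F) ∈ Ow) (hpu : aeval u p = 0)
    (hdeg : Module.finrank E F = p.natDegree) (htop : E⟮u⟯ = ⊤) (hu : u ∈ Ow)
    (hder : (aeval u (derivative p))⁻¹ ∈ Ow)
    (hspan : ∀ y ∈ Ow, ∃ a : ℕ → E, (∀ i, (a i : F) ∈ Ow) ∧
      y = ∑ i ∈ Finset.range p.natDegree, (a i : F) * u ^ i) :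
    IsVert A₀ ϖ₀ Ow E := by
  have hint : IsIntegral E u := ⟨p, hp, hpu⟩
  have hpos : 0 < p.natDegree := by
    rcases Nat.eq_zero_or_pos p.natDegree with h | h
    · exfalso
      rw [hp.natDegree_eq_zero.1 h, map_one] at hpu
      exact one_ne_zero hpu
    · exact h
  have hfin : FiniteDimensional E F := Module.finite_of_finrank_pos (by rw [hdeg]; exact hpos)
  have hchar : CharZero E := charZero_of_injective_algebraMap (algebraMap K₀ E).injective
  have hadj : Algebra.adjoin E {u} = ⊤ := by
    rw [← IntermediateField.adjoin_simple_toSubalgebra_of_isAlgebraic hint.isAlgebraic, htop,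
      IntermediateField.top_toSubalgebra]
  have hmin : minpoly E u = p := by
    have h1 : (minpoly E u).natDegree = p.natDegree := by
      rw [← hdeg, ← IntermediateField.adjoin.finrank hint, htop, IntermediateField.finrank_top']
    exact (eq_of_monic_of_dvd_of_natDegree_le (minpoly.monic hint) hp (minpoly.dvd _ u hpu)
      h1.ge).symm
  -- the subring `Ow ∩ E`
  let R : Subring E := Ow.toSubring.comap (algebraMap E F)
  have hRu : IsIntegral R u := by
    have hco : (↑p.coeffs : Set E) ⊆ R := by
      intro c hc'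
      obtain ⟨i, -, rfl⟩ := Polynomial.mem_coeffs_iff.1 (Finset.mem_coe.1 hc')
      exact hpO i
    refine ⟨p.toSubring R hco, (Polynomial.monic_toSubring p R hco).2 hp, ?_⟩
    have h1 : algebraMap R F = (algebraMap E F).comp R.subtype := rfl
    rw [h1, ← eval₂_map, Polynomial.map_toSubring]
    exact hpu
  refine ⟨h₀, hw, hc, hfin, ?_, ?_⟩
  · intro y hy
    obtain ⟨a, ha, rfl⟩ := hspan y hy
    have hy' : IsIntegral R (∑ i ∈ Finset.range p.natDegree, (a i : F) * u ^ i) :=
      IsIntegral.sum _ fun i _ => IsIntegral.mul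
        (isIntegral_algebraMap (x := (⟨a i, ha i⟩ : R))) (hRu.pow i)
    obtain ⟨q, hq, hq0⟩ := hy'
    refine ⟨q.map R.subtype, hq.map _, fun i => ?_, ?_⟩
    · rw [coeff_map]
      exact (q.coeff i).2
    · rw [aeval_def, eval₂_map]
      exact hq0
  · refine ⟨u ^ (p.natDegree - 1) / aeval u (derivative p), ?_, ?_⟩
    · rw [div_eq_mul_inv]
      exact mul_mem (pow_mem hu _) hder
    · have := trace_pow_div_derivative (K := E) hadj
      rwa [hmin] at this

end Gauss

end Fermat.Agent.S18
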