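/-
KL-A, block VERT-j (helper113): the vertical hypotheses for `FK K₀ M / K₀(j)`.
-/
import Fermat.Agent.S18.Gauss.Field
import Fermat.Agent.S18.Gauss.VertAbs
import Fermat.Agent.S28.Export.Main

set_option autoImplicit false

noncomputable section

namespace Fermat.Agent.S18

open Polynomial IntermediateField ModularCurve Gauss
open Fermat.Agent.S28.Export (Red IsGood gaussRing iota rho red_iota evalT bigK uK uO uk chiK chik)
open Fermat.Agent.S18.Vert (chiS uS zlTo chiS_monic chiS_natDegree chiS_eval chiS_coeff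
  chiS_comp uS_comp coeffMap_eval₂_evalJ)

namespace Gauss

section Transfer

variable {K Ω : Type*} [Field K] [Field Ω] [Algebra K Ω] (F : IntermediateField K Ω) (x : F)

theorem map_adjoin_simple : (K⟮x⟯).map F.val = K⟮(x : Ω)⟯ := by
  rw [IntermediateField.adjoin_map, Set.image_singleton]; rfl

theorem mem_adjoin_simple_coe_iff (y : F) : y ∈ K⟮x⟯ ↔ (y : Ω) ∈ K⟮(x : Ω)⟯ := by
  rw [← map_adjoin_simple, IntermediateField.mem_map]
  constructor
  · intro h; exact ⟨y, h, rfl⟩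
  · rintro ⟨z, hz, h⟩
    have : z = y := Subtype.ext h
    rwa [← this]

theorem finrank_adjoin_simple_coe :
    Module.finrank K⟮x⟯ F = (K⟮(x : Ω)⟯).relfinrank F := by
  rw [← IntermediateField.relfinrank_top_right, ← IntermediateField.relfinrank_map_map _ _ F.val,
    map_adjoin_simple, ← AlgHom.fieldRange_eq_map, IntermediateField.fieldRange_val]

theorem adjoin_adjoin_simple_eq_top (u : F)
    (h : F = IntermediateField.adjoin K {(x : Ω), (u : Ω)}) : (K⟮x⟯)⟮u⟯ = ⊤ := by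
  rw [eq_top_iff]
  intro y _
  let T : IntermediateField K F := ((K⟮x⟯)⟮u⟯).restrictScalars K
  have hle : IntermediateField.adjoin K {(x : Ω), (u : Ω)} ≤ T.map F.val := by
    rw [IntermediateField.adjoin_le_iff]
    rintro z (rfl | rfl)
    · refine ⟨x, ?_, rfl⟩
      exact ((K⟮x⟯)⟮u⟯).algebraMap_mem (⟨x, IntermediateField.mem_adjoin_simple_self K x⟩ : K⟮x⟯)
    · exact ⟨u, IntermediateField.mem_adjoin_simple_self _ u, rfl⟩
  have hy : (y : Ω) ∈ T.map F.val := hle (h ▸ y.2)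
  obtain ⟨z, hz, hzy⟩ := hy
  have : z = y := Subtype.ext hzy
  rw [← this]
  exact hz

/-- `P ↦ P(x)` with values in `K(x)`. -/
def evE : K[X] →+* K⟮x⟯ := (aeval (AdjoinSimple.gen K x)).toRingHom

theorem coe_evE (P : K[X]) : (((evE F x P : K⟮x⟯) : F) : Ω) = aeval (x : Ω) P := by
  have h1 : ((evE F x P : K⟮x⟯) : F) = aeval x P := by
    have := Polynomial.aeval_algHom_apply (K⟮x⟯).val (AdjoinSimple.gen K x) P
    rw [IntermediateField.coe_val, AdjoinSimple.coe_gen] at this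
    rw [this]; rfl
  rw [h1]
  have := Polynomial.aeval_algHom_apply F.val x P
  rw [IntermediateField.coe_val] at this
  rw [this]

theorem coe_aeval_map_evE (u : F) (Q : K[X][X]) :
    ((aeval u (Q.map (evE F x)) : F) : Ω) = Q.eval₂ (aeval (x : Ω)).toRingHom (u : Ω) := by
  rw [aeval_def, eval₂_map]
  have := hom_eval₂ Q ((algebraMap K⟮x⟯ F).comp (evE F x)) (algebraMap F Ω) u
  have h2 : (algebraMap F Ω).comp ((algebraMap K⟮x⟯ F).comp (evE F x)) =
      (aeval (x : Ω)).toRingHom := RingHom.ext fun P => coe_evE F x P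
  rw [h2] at this
  exact this

end Transfer

variable {K₀ : Type*} [Field K₀] {A₀ : ValuationSubring K₀} {ϖ₀ : K₀}

theorem liesOverPrime_of_div_mem (h₀ : IsUnif A₀ ϖ₀) {ℓ : ℕ} (hℓA : (ℓ : K₀) / ϖ₀ ∈ A₀) :
    A₀.LiesOverPrime ℓ := by
  rw [ValuationSubring.LiesOverPrime, ValuationSubring.mem_nonunits_iff_exists_mem_maximalIdeal]
  refine ⟨natCast_mem A₀ ℓ, ?_⟩
  rw [← IsLocalRing.residue_eq_zero_iff, residue_eq_zero_iff h₀]
  exact hℓA

theorem coe_jK [Algebra ℚ K₀] (M : ℕ) :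
    ((S18.jK K₀ M : FK K₀ M) : LaurentSeries K₀) = jqModC K₀ :=
  coeffMap_jqModC (R := ℚ) _

end Gauss

section VERT

variable {K₀ : Type*} [Field K₀] [Algebra ℚ K₀] {A₀ : ValuationSubring K₀} {ϖ₀ : K₀}

theorem isVert_j (h₀ : IsUnif A₀ ϖ₀) {M ℓ : ℕ} [NeZero M] [Fact ℓ.Prime] (hℓ : ¬ ℓ ∣ M)
    (hℓA : (ℓ : K₀) / ϖ₀ ∈ A₀) (U : S28.UData M ℓ) {Ow : ValuationSubring (FK K₀ M)}
    (hG : IsGauss A₀ ϖ₀ (FK K₀ M) Ow) : IsVert A₀ ϖ₀ Ow K₀⟮jK K₀ M⟯ := by
  have hchar : CharZero K₀ := algebraRat.charZero K₀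
  obtain ⟨D, hDn, hDu⟩ := S28.Export.exists_good_UData M ℓ hℓ
  have hℓ' : A₀.LiesOverPrime ℓ := liesOverPrime_of_div_mem h₀ hℓA
  have hFK : FK K₀ M = bigK A₀ D hℓ' := by
    rw [FK_eq_full, S28.Export.bigK_eq_full A₀ D hℓ' hDu]
  have hgood : IsGood A₀ (FK K₀ M) := (hasNf_FK h₀ M).isGood h₀
  have hOw : Ow = gaussRing A₀ (FK K₀ M) hgood :=
    hG.eq_of_hasNf (hasNf_FK h₀ M) (isGauss_gaussRing h₀ hgood)
  have hmem : ∀ y : FK K₀ M, y ∈ Ow ↔ ∃ g, Red A₀ (y : LaurentSeries K₀) g := by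
    rw [hOw]; intro y; rfl
  have hj : ((jK K₀ M : FK K₀ M) : LaurentSeries K₀) = jqModC K₀ := coe_jK M
  have huF : uK A₀ D hℓ' ∈ FK K₀ M := by
    rw [hFK]; exact IntermediateField.subset_adjoin _ _ (by simp)
  let uF : FK K₀ M := ⟨uK A₀ D hℓ', huF⟩
  let ev : K₀[X] →+* K₀⟮jK K₀ M⟯ := evE (FK K₀ M) (jK K₀ M)
  have hT : (aeval (jqModC K₀)).toRingHom = evalT (jqModC K₀) :=
    RingHom.ext fun P => (S28.Export.evalT_eq_aeval _ P).symm
  have hval : ∀ (Q : K₀[X][X]), ((aeval uF (Q.map ev) : FK K₀ M) : LaurentSeries K₀) =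
      Q.eval₂ (evalT (jqModC K₀)) (uK A₀ D hℓ') := by
    intro Q
    rw [coe_aeval_map_evE, hj, hT]
  have hmonic : (chiK A₀ D hℓ').Monic := chiS_monic D _
  have hnat : ((chiK A₀ D hℓ').map ev).natDegree = D.n := by
    rw [hmonic.natDegree_map, S28.Export.chiK_natDegree]
  refine isVert_of_simple h₀ hG.unif hG.const_mem uF ((chiK A₀ D hℓ').map ev)
    (hmonic.map _) ?_ ?_ ?_ ?_ ?_ ?_ ?_
  · -- coefficients
    intro i
    rw [hmem, coeff_map]
    have h1 : (((ev ((chiK A₀ D hℓ').coeff i) : K₀⟮jK K₀ M⟯) : FK K₀ M) : LaurentSeries K₀) =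
        evalT (jqModC K₀) ((chiK A₀ D hℓ').coeff i) := by
      rw [coe_evE, hj, S28.Export.evalT_eq_aeval]
    rw [h1, chiK, chiS_coeff, ← Polynomial.map_map, ← S28.Export.iota_jqModC A₀,
      ← S28.Export.iota_evalT]
    exact ⟨_, red_iota _⟩
  · -- root
    apply Subtype.val_injective
    rw [hval, S28.Export.chiK_eval]
    rfl
  · -- degree
    rw [hnat, finrank_adjoin_simple_coe, hj, hFK]
    exact S28.Export.relfinrank_bigK A₀ D hℓ'
  · -- generation
    apply adjoin_adjoin_simple_eq_top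
    rw [hj]
    exact hFK
  · exact (hmem uF).2 ⟨_, S28.Export.red_uK A₀ D hℓ'⟩
  · -- the derivative is a unit
    rw [hmem, derivative_map]
    let W : LaurentSeries A₀ :=
      (derivative (chiS D (zlTo A₀ hℓ'))).eval₂ (S28.evalJ A₀) (uO A₀ D hℓ')
    have h1 : iota A₀ W = (derivative (chiK A₀ D hℓ')).eval₂ (evalT (jqModC K₀)) (uK A₀ D hℓ') := by
      change coeffMap _ _ = _
      rw [coeffMap_eval₂_evalJ, ← derivative_map, chiS_comp]
      rfl
    have h2 : rho A₀ W = (derivative (chik A₀ D hℓ')).eval₂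
        (evalT (jqModC (IsLocalRing.ResidueField A₀))) (uk A₀ D hℓ') := by
      change coeffMap _ _ = _
      rw [coeffMap_eval₂_evalJ, ← derivative_map, chiS_comp]
      rfl
    have h3 : rho A₀ W ≠ 0 := by
      rw [h2]; exact S28.Export.derivative_chik_ne_zero A₀ D hℓ'
    have h4 := (red_iota W).inv h3
    rw [h1, ← hval] at h4
    exact ⟨_, h4⟩
  · -- span
    intro y hy
    obtain ⟨g, hg⟩ := (hmem y).1 hy
    obtain ⟨a, ab, ha, hab, hya, -⟩ := S28.Export.exists_coeffs_of_red A₀ D hℓ' (hFK ▸ y.2) hg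
    have haF : ∀ i, a i ∈ FK K₀ M := fun i => by
      rw [hFK]; exact S28.Export.jK_le_bigK A₀ D hℓ' (ha i)
    have haE : ∀ i, (⟨a i, haF i⟩ : FK K₀ M) ∈ K₀⟮jK K₀ M⟯ := fun i => by
      rw [mem_adjoin_simple_coe_iff, hj]; exact ha i
    refine ⟨fun i => if i < D.n then ⟨⟨a i, haF i⟩, haE i⟩ else 0, fun i => ?_, ?_⟩
    · by_cases hi : i < D.n
      · simp only [hi, if_true]
        exact (hmem _).2 ⟨_, hab i hi⟩
      · simp only [hi, if_false]
        exact Ow.zero_mem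
    · apply Subtype.val_injective
      rw [hnat, hya]
      simp only [AddSubmonoidClass.coe_finsetSum, MulMemClass.coe_mul, SubmonoidClass.coe_pow]
      refine Finset.sum_congr rfl fun i hi => ?_
      rw [if_pos (Finset.mem_range.1 hi)]

end VERT

end Fermat.Agent.S18
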